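import Fermat.Agent.DS.Eis.G3

/-!
# Closed forms of the two constant terms

The constant terms of weight three and four are evaluated through the moments of a root of unity
(`one_sub_pow_mul_eisConst3`, `one_sub_pow_mul_eisConst`).
-/

set_option autoImplicit false

noncomputable section

open Complex
open scoped Real
open Fermat.JAC.XH

namespace Fermat.DS.Eis

/-- Summation by parts for a geometric sum. -/
theorem one_sub_mul_sum (f : ℕ → ℂ) (x : ℂ) (n : ℕ) :
    (1 - x) * ∑ j ∈ Finset.range n, f j * x ^ j =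
      x * ∑ j ∈ Finset.range n, (f (j + 1) - f j) * x ^ j + f 0 - f n * x ^ n := by
  induction n with
  | zero => simp
  | succ n ih =>
    rw [Finset.sum_range_succ, Finset.sum_range_succ, mul_add, mul_add, ih, pow_succ]
    ring

variable (N : ℕ) [NeZero N]

/-- `qz (-r / N)` is an `N`-th root of unity. -/
theorem qz_neg_div_pow (r : ℤ) : qz (-(r : ℂ) / N) ^ N = 1 := by
  have hN : (N : ℂ) ≠ 0 := Nat.cast_ne_zero.mpr (NeZero.ne N)
  rw [qz_pow, qz, show 2 * (π : ℂ) * I * ((N : ℂ) * (-(r : ℂ) / N)) = (-r : ℤ) * (2 * π * I) by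
    push_cast; field_simp]
  exact Complex.exp_int_mul_two_pi_mul_I _

/-- The powers of a nontrivial root of unity sum to zero. -/
theorem sum_qz_neg_div {r : ℤ} (hr : (r : ZMod N) ≠ 0) :
    ∑ j ∈ Finset.range N, qz (-(r : ℂ) / N) ^ j = 0 := by
  have h := sum_qz_div N (-r)
  rw [if_neg (by simpa using hr)] at h
  simpa [Int.cast_neg] using h

/-- The root of unity is nontrivial for `r` nonzero modulo `N`. -/
theorem qz_neg_div_ne_one {r : ℤ} (hr : (r : ZMod N) ≠ 0) : qz (-(r : ℂ) / N) ≠ 1 := by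
  intro h
  have h0 := sum_qz_neg_div N hr
  rw [h] at h0
  simp [NeZero.ne N] at h0

section Moments

variable {N} (x : ℂ)

/-- `∑ jᵐ xʲ` over a period. -/
def moment (N m : ℕ) (x : ℂ) : ℂ := ∑ j ∈ Finset.range N, (j : ℂ) ^ m * x ^ j

omit [NeZero N] in
/-- The recursion for the moments of a root of unity. -/
theorem one_sub_mul_moment (m : ℕ) (hm : m ≠ 0) (hx : x ^ N = 1) :
    (1 - x) * moment N m x =
      x * (∑ i ∈ Finset.range m, (m.choose i : ℂ) * moment N i x) - (N : ℂ) ^ m := by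
  rw [moment, one_sub_mul_sum (fun j => (j : ℂ) ^ m), hx, mul_one]
  simp only [CharP.cast_eq_zero, zero_pow hm, add_zero]
  congr 2
  simp only [moment, Finset.mul_sum]
  rw [Finset.sum_comm]
  refine Finset.sum_congr rfl fun j _ => ?_
  push_cast
  rw [add_pow, Finset.sum_range_succ]
  simp only [one_pow, mul_one, Nat.choose_self, Nat.cast_one, add_sub_cancel_right]
  rw [Finset.sum_mul]
  exact Finset.sum_congr rfl fun i _ => by ring

/-- The zeroth moment of a nontrivial root of unity vanishes. -/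
theorem moment_zero {r : ℤ} (hr : (r : ZMod N) ≠ 0) : moment N 0 (qz (-(r : ℂ) / N)) = 0 := by
  simpa [moment] using sum_qz_neg_div N hr

end Moments

/-- The third Bernoulli polynomial. -/
theorem bernoulli_three_eval (t : ℚ) :
    (Polynomial.bernoulli 3).eval t = t ^ 3 - 3 / 2 * t ^ 2 + 1 / 2 * t := by
  simp [Polynomial.bernoulli, Finset.sum_range_succ, Nat.choose, bernoulli_zero, bernoulli_one,
    bernoulli_two, bernoulli_eq_zero_of_odd (n := 3) (by decide) (by norm_num)]
  ring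

/-- The fourth Bernoulli polynomial. -/
theorem bernoulli_four_eval (t : ℚ) :
    (Polynomial.bernoulli 4).eval t = t ^ 4 - 2 * t ^ 3 + t ^ 2 - 1 / 30 := by
  have h4 : bernoulli 4 = -1 / 30 := by decide +kernel
  simp [Polynomial.bernoulli, Finset.sum_range_succ, Nat.choose, bernoulli_zero, bernoulli_one,
    bernoulli_two, bernoulli_eq_zero_of_odd (n := 3) (by decide) (by norm_num), h4]
  ring

/-- Closed form of the constant term of weight three. -/
theorem one_sub_pow_mul_eisConst3 {r : ℤ} (hr : (r : ZMod N) ≠ 0) :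
    (1 - qz (-(r : ℂ) / N)) ^ 3 * eisConst3 N r =
      -(qz (-(r : ℂ) / N) * (1 + qz (-(r : ℂ) / N))) := by
  have hN : (N : ℂ) ≠ 0 := Nat.cast_ne_zero.mpr (NeZero.ne N)
  set x := qz (-(r : ℂ) / N) with hx
  have hxN : x ^ N = 1 := qz_neg_div_pow N r
  have h0 : moment N 0 x = 0 := moment_zero hr
  have h1 := one_sub_mul_moment x 1 one_ne_zero hxN
  have h2 := one_sub_mul_moment x 2 two_ne_zero hxN
  have h3 := one_sub_mul_moment x 3 three_ne_zero hxN
  simp [Finset.sum_range_succ, Nat.choose, h0] at h1 h2 h3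
  have hC : eisConst3 N r = (moment N 3 x - 3 / 2 * N * moment N 2 x +
      1 / 2 * (N : ℂ) ^ 2 * moment N 1 x) / (3 * N) := by
    rw [eisConst3, ← hx, eq_div_iff (by simp [hN])]
    simp only [moment, Finset.mul_sum, Finset.sum_mul, ← Finset.sum_sub_distrib,
      ← Finset.sum_add_distrib]
    refine Finset.sum_congr rfl fun j _ => ?_
    rw [bernoulli_three_eval]
    push_cast
    field_simp
  rw [hC, mul_div_assoc', div_eq_iff (by simp [hN])]
  linear_combination (1 - x) ^ 2 * h3 + (3 * x * (1 - x) - 3 / 2 * N * (1 - x) ^ 2) * h2 +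
    (3 * x * (1 - x) + 6 * x ^ 2 - 3 * N * x * (1 - x) + 1 / 2 * (N : ℂ) ^ 2 * (1 - x) ^ 2) * h1

/-- Closed form of the constant term of weight four. -/
theorem one_sub_pow_mul_eisConst {r : ℤ} (hr : (r : ZMod N) ≠ 0) :
    (1 - qz (-(r : ℂ) / N)) ^ 4 * eisConst N r =
      qz (-(r : ℂ) / N) * (1 + 4 * qz (-(r : ℂ) / N) + qz (-(r : ℂ) / N) ^ 2) := by
  have hN : (N : ℂ) ≠ 0 := Nat.cast_ne_zero.mpr (NeZero.ne N)
  set x := qz (-(r : ℂ) / N) with hx
  have hxN : x ^ N = 1 := qz_neg_div_pow N r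
  have h0 : moment N 0 x = 0 := moment_zero hr
  have h1 := one_sub_mul_moment x 1 one_ne_zero hxN
  have h2 := one_sub_mul_moment x 2 two_ne_zero hxN
  have h3 := one_sub_mul_moment x 3 three_ne_zero hxN
  have h4 := one_sub_mul_moment x 4 four_ne_zero hxN
  simp [Finset.sum_range_succ, Nat.choose, h0] at h1 h2 h3 h4
  have hC : eisConst N r = -(moment N 4 x - 2 * N * moment N 3 x + (N : ℂ) ^ 2 * moment N 2 x
      - 1 / 30 * (N : ℂ) ^ 4 * moment N 0 x) / (4 * N) := by
    rw [eisConst, ← hx, eq_div_iff (by simp [hN])]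
    simp only [moment, Finset.mul_sum, Finset.sum_mul, ← Finset.sum_sub_distrib,
      ← Finset.sum_add_distrib, ← Finset.sum_neg_distrib]
    refine Finset.sum_congr rfl fun j _ => ?_
    rw [bernoulli_four_eval]
    push_cast
    field_simp
  rw [hC, h0, mul_div_assoc', div_eq_iff (by simp [hN])]
  linear_combination -((1 - x) ^ 3) * h4 - (4 * x * (1 - x) ^ 2 - 2 * N * (1 - x) ^ 3) * h3
    - (6 * x * (1 - x) ^ 2 + 12 * x ^ 2 * (1 - x) - 6 * N * x * (1 - x) ^ 2
        + (N : ℂ) ^ 2 * (1 - x) ^ 3) * h2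
    - (4 * x * (1 - x) ^ 2 + 3 * x * (4 * x * (1 - x) - 2 * N * (1 - x) ^ 2)
        + 2 * x * (6 * x * (1 - x) + 12 * x ^ 2 - 6 * N * x * (1 - x)
        + (N : ℂ) ^ 2 * (1 - x) ^ 2)) * h1

end Fermat.DS.Eis

end
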