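import Fermat.Agent.DS.Eis.G3
import Fermat.Agent.HT.Ell.Uniform
import Fermat.Agent.HT.Ell.Lattice

/-!
# `G3` has no zero in the upper half plane

`G3_ne_zero`: `G3` is a multiple of `℘'` at an `N`-torsion point, and `℘'` vanishes only at points
of order two.
-/

set_option autoImplicit false

noncomputable section

open EisensteinSeries
open UpperHalfPlane hiding I
open Fermat.JAC.XH Fermat.HT.Ell

namespace Fermat.DS.Eis

/-- `℘'` vanishes only at points of order two. -/
theorem two_mul_mem_of_derivWeierstrassP_eq_zero (L : PeriodPair) {w : ℂ} (hw : w ∉ L.lattice)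
    (h : L.derivWeierstrassP w = 0) : 2 * w ∈ L.lattice := by
  have hΔ := disc_ne_zero L
  have hw' : -w ∉ L.lattice := fun h' => hw (by simpa using neg_mem h')
  have hpt : pt L hΔ (-w) = pt L hΔ w := by
    rw [pt_of_notMem L hΔ hw', pt_of_notMem L hΔ hw]
    congr 1
    · exact L.weierstrassP_neg w
    · rw [L.derivWeierstrassP_neg, h, neg_zero]
  rw [← ptHom_eq_zero_iff L hΔ (2 * w), two_mul, map_add]
  change pt L hΔ w + pt L hΔ w = 0
  conv_lhs => arg 2; rw [← hpt, pt_neg]
  exact add_neg_cancel _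

variable (N : ℕ) [NeZero N]

/-- The lattice is in bijection with a class of vectors modulo `N`. -/
def latticeClassEquiv (a : Fin 2 → ZMod N) (v : Fin 2 → ℤ) (hv : v ∈ vecSet N a) (z : ℍ) :
    (tauPair z).lattice ≃ vecSet N a where
  toFun l := ⟨![v 0 - N * ((tauPair z).latticeEquivProd l).1,
      v 1 - N * ((tauPair z).latticeEquivProd l).2], funext fun i => by
    fin_cases i <;> simp <;> exact congrFun hv _⟩
  invFun x := (tauPair z).latticeEquivProd.symm ((v 0 - x.1 0) / N, (v 1 - x.1 1) / N)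
  left_inv l := by
    have hN : (N : ℤ) ≠ 0 := Int.natCast_ne_zero.mpr (NeZero.ne N)
    simp [Int.mul_ediv_cancel_left _ hN]
  right_inv x := by
    have hd : ∀ i, (N : ℤ) ∣ v i - x.1 i := fun i => by
      rw [← ZMod.intCast_zmod_eq_zero_iff_dvd, Int.cast_sub, sub_eq_zero]
      exact (congrFun hv i).trans (congrFun x.2 i).symm
    refine Subtype.ext (funext fun i => ?_)
    fin_cases i <;> simp [Int.mul_ediv_cancel' (hd _)]

/-- The derivative of the Weierstrass function at an `N`-torsion point is `G3` up to a constant. -/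
theorem derivWeierstrassP_eq_G3 (a : Fin 2 → ZMod N) (v : Fin 2 → ℤ) (hv : v ∈ vecSet N a) (z : ℍ) :
    (tauPair z).derivWeierstrassP ((v 0 * (z : ℂ) + v 1) / N) = -2 * (N : ℂ) ^ 3 * G3 N a z := by
  have hN : (N : ℂ) ≠ 0 := Nat.cast_ne_zero.mpr (NeZero.ne N)
  rw [← ((tauPair z).hasSum_derivWeierstrassP _).tsum_eq, G3, ← tsum_mul_left,
    ← (latticeClassEquiv N a v hv z).tsum_eq]
  refine tsum_congr fun l => ?_
  have hl := (tauPair z).latticeEquiv_symm_apply ((tauPair z).latticeEquivProd l)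
  rw [LinearEquiv.symm_apply_apply] at hl
  rw [show (tauPair z).ω₁ = (z : ℂ) from rfl, show (tauPair z).ω₂ = 1 from rfl, mul_one] at hl
  conv_lhs => rw [hl]
  simp only [latticeClassEquiv, Equiv.coe_fn_mk, eisSummand, Matrix.cons_val_zero,
    Matrix.cons_val_one]
  push_cast
  rw [zpow_neg, show (3 : ℤ) = ((3 : ℕ) : ℤ) from rfl, zpow_natCast]
  set m : ℤ := ((tauPair z).latticeEquivProd l).1
  set n : ℤ := ((tauPair z).latticeEquivProd l).2
  rw [show ((v 0 : ℂ) * z + v 1) / N - (m * (z : ℂ) + n) =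
      (((v 0 : ℂ) - N * m) * z + ((v 1 : ℂ) - N * n)) / N from by field_simp; ring,
    div_pow, div_div_eq_mul_div, div_eq_mul_inv]

/-- A point `(p z + q) / N` lies in the lattice only if `N` divides `p` and `q`. -/
theorem combo_mem_lattice {p q : ℤ} {z : ℍ}
    (h : ((p : ℂ) * (z : ℂ) + q) / N ∈ (tauPair z).lattice) :
    (N : ℤ) ∣ p ∧ (N : ℤ) ∣ q := by
  have hN : (N : ℂ) ≠ 0 := Nat.cast_ne_zero.mpr (NeZero.ne N)
  obtain ⟨m, n, e⟩ := PeriodPair.mem_lattice.mp h
  simp only [tauPair, mul_one] at e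
  rw [eq_div_iff hN] at e
  have him := congrArg Complex.im e
  simp at him
  have hp : p = m * N := by
    have : ((p : ℝ) - m * N) * z.im = 0 := by linear_combination -him
    exact_mod_cast sub_eq_zero.mp ((mul_eq_zero.mp this).resolve_right z.im_ne_zero)
  have hq : q = n * N := by
    have : (q : ℂ) = n * N := by
      rw [hp] at e
      push_cast at e
      linear_combination -e
    exact_mod_cast this
  exact ⟨⟨m, by rw [hp, mul_comm]⟩, ⟨n, by rw [hq, mul_comm]⟩⟩

/-- `G3` has no zero, for `2` invertible modulo the level and a nonzero class. -/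
theorem G3_ne_zero (h2 : IsUnit (2 : ZMod N)) {a : Fin 2 → ZMod N} (ha : a ≠ 0) (z : ℍ) :
    G3 N a z ≠ 0 := by
  intro h
  let v : Fin 2 → ℤ := fun i => ((a i).val : ℤ)
  have hv : v ∈ vecSet N a := funext fun i => by simp [v]
  have key : ∀ (u : ℤ), IsUnit (u : ZMod N) →
      (((u * v 0 : ℤ) : ℂ) * (z : ℂ) + (u * v 1 : ℤ)) / N ∉ (tauPair z).lattice := fun u hu hm => by
    obtain ⟨h0, h1⟩ := combo_mem_lattice N hm
    refine ha (funext fun i => ?_)
    have : (N : ℤ) ∣ u * v i := by fin_cases i <;> assumption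
    rw [← ZMod.intCast_zmod_eq_zero_iff_dvd, Int.cast_mul, hu.mul_right_eq_zero] at this
    simpa [v] using this
  have hw := key 1 (by simp)
  simp only [one_mul] at hw
  have hd := derivWeierstrassP_eq_G3 N a v hv z
  rw [h, mul_zero] at hd
  refine key 2 (by simpa using h2) ?_
  have := two_mul_mem_of_derivWeierstrassP_eq_zero _ hw hd
  convert this using 1
  push_cast
  ring

end Fermat.DS.Eis

end
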