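import Fermat.Agent.DS.Eis.Const
import Fermat.Agent.DS.Eis.Nonvanish

/-!
# The quotient of the two series at the cusps

`P3` and `P4` are the normalised series and `R1` their quotient, which is bounded at `∞` for every
nonzero class, so at every cusp (`isBoundedAtImInfty_R1`).
-/

set_option autoImplicit false
set_option linter.unusedSectionVars false

noncomputable section

open Filter
open UpperHalfPlane hiding I
open scoped Real MatrixGroups Manifold Topology
open Fermat.JAC.XH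

namespace Fermat.DS.Eis

variable (N : ℕ) [NeZero N]

/-- The normalised series of weight three. -/
def P3 (a : Fin 2 → ZMod N) (z : ℍ) : ℂ := (eisK3 N)⁻¹ * G3 N a z

/-- The normalised series of weight four. -/
def P4 (a : Fin 2 → ZMod N) (z : ℍ) : ℂ := (eisK N)⁻¹ * G4 N a z

/-- The quotient: a form of weight one. -/
def R1 (a : Fin 2 → ZMod N) (z : ℍ) : ℂ := P4 N a z / P3 N a z

/-- The uniformiser of width `N`. -/
def qN (z : ℍ) : ℂ := qz ((z : ℂ) / N)

/-- The norm of `q ^ (1 / N)`. -/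
theorem norm_qN (z : ℍ) : ‖qN N z‖ = Real.exp (-2 * π * z.im / N) := by
  rw [qN, qz, Complex.norm_exp]
  congr 1
  simp [Complex.mul_re, Complex.mul_im, Complex.div_natCast_re, Complex.div_natCast_im]
  ring

/-- Above height one `q ^ (1 / N)` has norm at most `exp (-2π / N)`. -/
theorem norm_qN_le {z : ℍ} (hz : 1 ≤ z.im) : ‖qN N z‖ ≤ Real.exp (-2 * π / N) := by
  rw [norm_qN, Real.exp_le_exp]
  gcongr ?_ / _
  nlinarith [Real.pi_pos, mul_le_mul_of_nonneg_left hz Real.pi_pos.le]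

/-- `q ^ (1 / N)` tends to zero at infinity. -/
theorem tendsto_norm_qN : Tendsto (fun z : ℍ => ‖qN N z‖) atImInfty (𝓝 0) := by
  simp_rw [norm_qN]
  refine Real.tendsto_exp_atBot.comp ?_
  have hc : -2 * π / N < 0 :=
    div_neg_of_neg_of_pos (by nlinarith [Real.pi_pos]) (by exact_mod_cast NeZero.pos N)
  refine (Tendsto.const_mul_atTop_of_neg hc tendsto_comap).congr fun z => ?_
  ring

/-- `q ^ (1 / N)` is nonzero. -/
theorem qN_ne_zero (z : ℍ) : qN N z ≠ 0 := Complex.exp_ne_zero _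

/-- A series supported in orders at least `m` is `O(q ^ m)`. -/
theorem norm_series_le (j m : ℕ) (u : ℕ → ℕ → ℂ) {C : ℝ} (hu : ∀ c k, ‖u c k‖ ≤ C)
    (hm : ∀ x : ℕ+ × ℕ+, (x.1 : ℕ) * x.2 < m → u x.1 x.2 = 0) :
    ∃ M : ℝ, ∀ z : ℍ, 1 ≤ z.im →
      ‖∑' x : ℕ+ × ℕ+, ((x.2 : ℕ) : ℂ) ^ j * u x.1 x.2 * qN N z ^ ((x.1 : ℕ) * x.2)‖ ≤
        M * ‖qN N z‖ ^ m := by
  set r0 := Real.exp (-2 * π / N)
  have hr0 : ‖(r0 : ℂ)‖ < 1 := by
    rw [Complex.norm_real, Real.norm_eq_abs, abs_of_pos (Real.exp_pos _), Real.exp_lt_one_iff]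
    exact div_neg_of_neg_of_pos (by nlinarith [Real.pi_pos]) (by exact_mod_cast NeZero.pos N)
  have hs : Summable fun x : ℕ+ × ℕ+ => ((x.2 : ℕ) : ℝ) ^ j * r0 ^ ((x.1 : ℕ) * x.2) := by
    refine (summable_prod_mul_pow (𝕜 := ℂ) j hr0).norm.congr fun x => ?_
    rw [norm_mul, norm_pow, norm_pow, Complex.norm_natCast, Complex.norm_real, Real.norm_eq_abs,
      abs_of_pos (Real.exp_pos _)]
  refine ⟨∑' x : ℕ+ × ℕ+, C / r0 ^ m * (((x.2 : ℕ) : ℝ) ^ j * r0 ^ ((x.1 : ℕ) * x.2)),
    fun z hz => ?_⟩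
  refine tsum_of_norm_bounded (g := fun x : ℕ+ × ℕ+ =>
    C / r0 ^ m * (((x.2 : ℕ) : ℝ) ^ j * r0 ^ ((x.1 : ℕ) * x.2)) * ‖qN N z‖ ^ m)
    (((hs.mul_left _).hasSum).mul_right _) fun x => ?_
  rcases lt_or_ge ((x.1 : ℕ) * x.2) m with h | h
  · rw [hm x h]
    simp only [mul_zero, zero_mul, norm_zero]
    have : 0 ≤ C := (norm_nonneg _).trans (hu 0 0)
    positivity
  · simp only [norm_mul, norm_pow, Complex.norm_natCast]
    obtain ⟨e, he⟩ := Nat.exists_eq_add_of_le h
    rw [he, pow_add, pow_add]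
    calc ((x.2 : ℕ) : ℝ) ^ j * ‖u x.1 x.2‖ * (‖qN N z‖ ^ m * ‖qN N z‖ ^ e)
        ≤ ((x.2 : ℕ) : ℝ) ^ j * C * (‖qN N z‖ ^ m * r0 ^ e) := by
          have : 0 ≤ C := (norm_nonneg _).trans (hu 0 0)
          gcongr
          · exact hu _ _
          · exact norm_qN_le N hz
      _ = C / r0 ^ m * (((x.2 : ℕ) : ℝ) ^ j * (r0 ^ m * r0 ^ e)) * ‖qN N z‖ ^ m := by
          have : r0 ^ m ≠ 0 := pow_ne_zero _ (Real.exp_pos _).ne'
          field_simp

variable {N}

/-- The expansion of the series of weight three in `q ^ (1 / N)`. -/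
theorem P3_eq (a : Fin 2 → ZMod N) (r : ℤ) (hr : (r : ZMod N) = a 1) (z : ℍ) :
    P3 N a z = (if a 0 = 0 then eisConst3 N r else 0) +
      ∑' x : ℕ+ × ℕ+, ((x.2 : ℕ) : ℂ) ^ 2 * rowWeight3 N a r x.1 x.2 *
        qN N z ^ ((x.1 : ℕ) * x.2) := by
  rw [P3, G3_eq N a r hr z]
  split_ifs with h0
  · rw [rowSum3_zero N r z, ← mul_add, ← mul_assoc, inv_mul_cancel₀ (eisK3_ne_zero N), one_mul]
    rfl
  · rw [zero_add, zero_add, ← mul_assoc, inv_mul_cancel₀ (eisK3_ne_zero N), one_mul]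
    rfl

/-- The expansion of the series of weight four in `q ^ (1 / N)`. -/
theorem P4_eq (a : Fin 2 → ZMod N) (r : ℤ) (hr : (r : ZMod N) = a 1) (z : ℍ) :
    P4 N a z = (if a 0 = 0 then eisConst N r else 0) +
      ∑' x : ℕ+ × ℕ+, ((x.2 : ℕ) : ℂ) ^ 3 * rowWeight N a r x.1 x.2 *
        qN N z ^ ((x.1 : ℕ) * x.2) := by
  rw [P4, G4_eq N a r hr z]
  split_ifs with h0
  · rw [rowSum_zero N r z, ← mul_add, ← mul_assoc, inv_mul_cancel₀ (eisK_ne_zero N), one_mul]
    rfl
  · rw [zero_add, zero_add, ← mul_assoc, inv_mul_cancel₀ (eisK_ne_zero N), one_mul]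
    rfl

/-- The constant term of weight three is nonzero. -/
theorem eisConst3_ne_zero (hN : Odd N) {r : ℤ} (hr : (r : ZMod N) ≠ 0) : eisConst3 N r ≠ 0 := by
  intro h
  have h3 := one_sub_pow_mul_eisConst3 N hr
  rw [h, mul_zero, eq_comm, neg_eq_zero, mul_eq_zero] at h3
  rcases h3 with h3 | h3
  · exact Complex.exp_ne_zero _ h3
  · have hp := qz_neg_div_pow N r
    rw [show qz (-(r : ℂ) / N) = -1 by linear_combination h3, hN.neg_one_pow] at hp
    norm_num at hp

/-- With `2` invertible only zero is its own negative. -/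
theorem eq_zero_of_neg_eq (h2 : IsUnit (2 : ZMod N)) {x : ZMod N} (h : -x = x) : x = 0 := by
  have : (2 : ZMod N) * x = 0 := by linear_combination -h
  rwa [h2.mul_right_eq_zero] at this

/-- The lift of `± x` of least absolute value bounds every natural number congruent to `± x`. -/
theorem min_val_le_natCast {x : ZMod N} (hx : x ≠ 0) {c : ℕ}
    (hc : ((c : ℤ) : ZMod N) = x ∨ ((-(c : ℤ) : ℤ) : ZMod N) = x) :
    min x.val (N - x.val) ≤ c := by
  rcases hc with hc | hc
  · refine (min_le_left _ _).trans ?_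
    rw [← hc, Int.cast_natCast, ZMod.val_natCast]
    exact Nat.mod_le _ _
  · refine (min_le_right _ _).trans ?_
    have : (c : ZMod N) = -x := by rw [← hc]; simp
    have hv := congrArg ZMod.val this
    rw [ZMod.val_natCast, ZMod.neg_val, if_neg hx] at hv
    exact hv ▸ Nat.mod_le _ _

/-- At every cusp `P3` has a leading term `c q ^ m` with `c ≠ 0`, and `P4` is `O(q ^ m)`. -/
theorem exists_leading (hN : Odd N) (h2 : IsUnit (2 : ZMod N)) {a : Fin 2 → ZMod N} (ha : a ≠ 0) :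
    ∃ (m : ℕ) (c : ℂ) (M : ℝ), c ≠ 0 ∧ ∀ z : ℍ, 1 ≤ z.im →
      ‖P3 N a z - c * qN N z ^ m‖ ≤ M * ‖qN N z‖ ^ (m + 1) ∧
        ‖P4 N a z‖ ≤ M * ‖qN N z‖ ^ m := by
  classical
  set r : ℤ := ((a 1).val : ℤ)
  have hr : (r : ZMod N) = a 1 := by simp [r]
  by_cases h0 : a 0 = 0
  -- the constant term leads
  · obtain ⟨M3, hM3⟩ := norm_series_le N 2 1 (fun c k => rowWeight3 N a r c k)
      (norm_rowWeight3_le N a r) (fun x h => absurd h (by
        have := Nat.mul_pos x.1.pos x.2.pos; omega))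
    obtain ⟨M4, hM4⟩ := norm_series_le N 3 0 (fun c k => rowWeight N a r c k)
      (norm_rowWeight_le N a r) (fun x h => absurd h (Nat.not_lt_zero _))
    have hr0 : (r : ZMod N) ≠ 0 := fun h => ha (funext fun i => by
      fin_cases i
      · exact h0
      · exact hr.symm.trans h)
    refine ⟨0, eisConst3 N r, max M3 (‖eisConst N r‖ + M4), eisConst3_ne_zero hN hr0,
      fun z hz => ⟨?_, ?_⟩⟩
    · rw [P3_eq a r hr, if_pos h0, pow_zero, mul_one, add_sub_cancel_left]
      exact (hM3 z hz).trans (by gcongr; exact le_max_left _ _)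
    · rw [P4_eq a r hr, if_pos h0, pow_zero, mul_one]
      refine (norm_add_le _ _).trans (le_trans ?_ (le_max_right _ _))
      gcongr
      simpa using hM4 z hz
  -- otherwise the least `c ≡ ± a 0` leads
  · set m : ℕ := min (a 0).val (N - (a 0).val)
    have hlt := ZMod.val_lt (a 0)
    have hpos : 0 < m := lt_min ((ZMod.val_pos).mpr h0) (by omega)
    have hle : ∀ c : ℕ, ((c : ℤ) : ZMod N) = a 0 ∨ ((-(c : ℤ) : ℤ) : ZMod N) = a 0 → m ≤ c :=
      fun c hc => min_val_le_natCast h0 hc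
    have hmm : (m : ZMod N) = a 0 ∨ (m : ZMod N) = -a 0 := by
      rcases min_choice (a 0).val (N - (a 0).val) with h | h
      · left; simp only [m]; rw [h]; simp
      · right; simp only [m]; rw [h, Nat.cast_sub hlt.le]; simp
    have hsupp : ∀ x : ℕ+ × ℕ+, (x.1 : ℕ) * x.2 < m →
        rowWeight3 N a r x.1 x.2 = 0 ∧ rowWeight N a r x.1 x.2 = 0 := fun x hx => by
      have hc : (x.1 : ℕ) < m := lt_of_le_of_lt (Nat.le_mul_of_pos_right _ x.2.pos) hx
      have h1 : ¬ (((x.1 : ℕ) : ℤ) : ZMod N) = a 0 := fun h => hc.not_ge (hle _ (Or.inl h))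
      have h1' : ¬ ((-((x.1 : ℕ) : ℤ) : ℤ) : ZMod N) = a 0 := fun h => hc.not_ge (hle _ (Or.inr h))
      simp only [rowWeight3, rowWeight]
      rw [if_neg h1, if_neg h1']
      simp
    set c := rowWeight3 N a r m 1
    have hc : c ≠ 0 := by
      simp only [c, rowWeight3, Int.cast_natCast, Int.cast_neg, pow_one]
      rcases hmm with h | h
      · rw [if_pos h, if_neg (fun h' => h0 (eq_zero_of_neg_eq h2 (by rwa [h] at h'))), sub_zero]
        exact Complex.exp_ne_zero _
      · rw [if_neg (fun h' => h0 (eq_zero_of_neg_eq h2 (h.symm.trans h'))),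
          if_pos (by rw [h, neg_neg]), zero_sub, neg_ne_zero]
        exact Complex.exp_ne_zero _
    -- the series without its leading term starts at `m + 1`
    let u : ℕ → ℕ → ℂ := fun c' k => if c' = m ∧ k = 1 then 0 else rowWeight3 N a r c' k
    obtain ⟨M3, hM3⟩ := norm_series_le N 2 (m + 1) u (C := 2)
      (fun c' k => by
        simp only [u]; split_ifs
        · simp
        · exact norm_rowWeight3_le N a r c' k)
      (fun x hx => by
        simp only [u]
        split_ifs with hx'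
        · rfl
        · rcases Nat.lt_succ_iff_lt_or_eq.mp hx with h | h
          · exact (hsupp x h).1
          · have hx1 : (x.1 : ℕ) < m := by
              refine lt_of_le_of_ne (h ▸ Nat.le_mul_of_pos_right _ x.2.pos) fun he => hx' ⟨he, ?_⟩
              rw [he] at h
              exact Nat.eq_of_mul_eq_mul_left hpos (by rw [h, mul_one])
            simp only [rowWeight3]
            rw [if_neg (fun h => absurd (hle _ (Or.inl h)) hx1.not_ge),
              if_neg (fun h => absurd (hle _ (Or.inr h)) hx1.not_ge), sub_zero])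
    obtain ⟨M4, hM4⟩ := norm_series_le N 3 m (fun c' k => rowWeight N a r c' k)
      (norm_rowWeight_le N a r) (fun x h => (hsupp x h).2)
    refine ⟨m, c, max M3 M4, hc, fun z hz => ⟨?_, ?_⟩⟩
    · rw [P3_eq a r hr, if_neg h0, zero_add]
      -- split off the leading term
      let x0 : ℕ+ × ℕ+ := (⟨m, hpos⟩, 1)
      have hs : Summable fun x : ℕ+ × ℕ+ => ((x.2 : ℕ) : ℂ) ^ 2 * rowWeight3 N a r x.1 x.2 *
          qN N z ^ ((x.1 : ℕ) * x.2) := by
        refine Summable.of_norm_bounded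
          ((summable_prod_mul_pow (𝕜 := ℂ) 2 (norm_qz_div_lt_one N z)).norm.mul_left 2) fun x => ?_
        simp only [norm_mul, norm_pow, Complex.norm_natCast, qN]
        rw [mul_assoc, mul_left_comm]
        exact mul_le_mul_of_nonneg_right (norm_rowWeight3_le N a r _ _) (by positivity)
      rw [hs.tsum_eq_add_tsum_ite x0]
      have e0 : ((x0.2 : ℕ) : ℂ) ^ 2 * rowWeight3 N a r x0.1 x0.2 * qN N z ^ ((x0.1 : ℕ) * x0.2) =
          c * qN N z ^ m := by simp [x0, c]
      rw [e0, add_sub_cancel_left]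
      refine le_of_eq_of_le ?_ ((hM3 z hz).trans (by gcongr; exact le_max_left _ _))
      congr 1
      refine tsum_congr fun x => ?_
      simp only [u]
      by_cases hx : x = x0
      · simp [hx, x0]
      · rw [if_neg hx, if_neg]
        rintro ⟨h1, h2⟩
        exact hx (Prod.ext (PNat.coe_injective h1) (PNat.coe_injective h2))
    · rw [P4_eq a r hr, if_neg h0, zero_add]
      exact (hM4 z hz).trans (by gcongr; exact le_max_right _ _)

/-- The quotient of the two series is bounded at `∞`, for odd level. -/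
theorem isBoundedAtImInfty_R1 (hN : Odd N) (h2 : IsUnit (2 : ZMod N)) {a : Fin 2 → ZMod N}
    (ha : a ≠ 0) : IsBoundedAtImInfty (R1 N a) := by
  obtain ⟨m, c, M, hc, hb⟩ := exists_leading hN h2 ha
  have hev : ∀ᶠ z : ℍ in atImInfty, 1 ≤ z.im ∧ M * ‖qN N z‖ < ‖c‖ / 2 :=
    (show ∀ᶠ z : ℍ in atImInfty, 1 ≤ z.im from
      tendsto_comap.eventually_ge_atTop 1).and
      (((tendsto_norm_qN N).const_mul M).eventually_lt_const
        (by rw [mul_zero]; exact div_pos (norm_pos_iff.mpr hc) two_pos))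
  refine Asymptotics.IsBigO.of_bound (2 * M / ‖c‖) (hev.mono fun z ⟨hz, hq⟩ => ?_)
  obtain ⟨h3, h4⟩ := hb z hz
  have hqm : 0 < ‖qN N z‖ ^ m := pow_pos (norm_pos_iff.mpr (qN_ne_zero N z)) m
  have h5 : ‖qN N z‖ ^ m * (‖c‖ / 2) ≤ ‖P3 N a z‖ := by
    have := norm_sub_norm_le (c * qN N z ^ m) (P3 N a z)
    rw [norm_sub_rev, norm_mul, norm_pow] at this
    rw [pow_succ] at h3
    nlinarith
  have hc0 : 0 < ‖c‖ := norm_pos_iff.mpr hc
  have h6 : 0 < ‖P3 N a z‖ := lt_of_lt_of_le (by positivity) h5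
  rw [R1, norm_div, Pi.one_apply, norm_one, mul_one, div_le_div_iff₀ h6 hc0]
  have hM : 0 ≤ M := nonneg_of_mul_nonneg_left ((norm_nonneg _).trans h4) hqm
  nlinarith

end Fermat.DS.Eis

end
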