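import Fermat.Agent.DS.EisDefs

/-!
# Calculus of reductions of complex numbers

The relation `RedEq` is compatible with the field operations, sums, powers and division of power
series.
-/

set_option autoImplicit false

noncomputable section

namespace Fermat.DS

variable {l : ℕ} [Fact l.Prime] {red : integralClosure ℤ ℂ →+* AlgebraicClosure (ZMod l)}

/-- An algebraic integer reduces to its reduction. -/
theorem RedEq.of_mem (a : integralClosure ℤ ℂ) : RedEq red (a : ℂ) (red a) :=
  ⟨a, 1, by simp, by simp, by simp⟩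

/-- Zero reduces to zero. -/
theorem RedEq.zero : RedEq red 0 0 := by
  simpa using RedEq.of_mem (red := red) 0

/-- One reduces to one. -/
theorem RedEq.one : RedEq red 1 1 := by
  simpa using RedEq.of_mem (red := red) 1

/-- A natural number reduces to itself. -/
theorem RedEq.natCast (n : ℕ) : RedEq red (n : ℂ) (n : AlgebraicClosure (ZMod l)) := by
  simpa using RedEq.of_mem (red := red) (n : integralClosure ℤ ℂ)

/-- Reduction commutes with negation. -/
theorem RedEq.neg {c : ℂ} {t : AlgebraicClosure (ZMod l)} (h : RedEq red c t) :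
    RedEq red (-c) (-t) := by
  obtain ⟨a, b, hb, hc, ht⟩ := h
  exact ⟨-a, b, hb, by push_cast; linear_combination -hc, by rw [map_neg, ht]; ring⟩

/-- Reduction is additive. -/
theorem RedEq.add {c c' : ℂ} {t t' : AlgebraicClosure (ZMod l)} (h : RedEq red c t)
    (h' : RedEq red c' t') : RedEq red (c + c') (t + t') := by
  obtain ⟨a, b, hb, hc, ht⟩ := h
  obtain ⟨a', b', hb', hc', ht'⟩ := h'
  exact ⟨a * b' + a' * b, b * b', by rw [map_mul]; exact mul_ne_zero hb hb',
    by push_cast; linear_combination (b' : ℂ) * hc + (b : ℂ) * hc',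
    by simp only [map_add, map_mul, ht, ht']; ring⟩

/-- Reduction commutes with subtraction. -/
theorem RedEq.sub {c c' : ℂ} {t t' : AlgebraicClosure (ZMod l)} (h : RedEq red c t)
    (h' : RedEq red c' t') : RedEq red (c - c') (t - t') := by
  simpa [sub_eq_add_neg] using h.add h'.neg

/-- Reduction is multiplicative. -/
theorem RedEq.mul {c c' : ℂ} {t t' : AlgebraicClosure (ZMod l)} (h : RedEq red c t)
    (h' : RedEq red c' t') : RedEq red (c * c') (t * t') := by
  obtain ⟨a, b, hb, hc, ht⟩ := h
  obtain ⟨a', b', hb', hc', ht'⟩ := h'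
  exact ⟨a * a', b * b', by rw [map_mul]; exact mul_ne_zero hb hb',
    by push_cast; rw [← hc, ← hc']; ring, by simp only [map_mul, ht, ht']; ring⟩

/-- Reduction commutes with powers. -/
theorem RedEq.pow {c : ℂ} {t : AlgebraicClosure (ZMod l)} (h : RedEq red c t) (n : ℕ) :
    RedEq red (c ^ n) (t ^ n) := by
  induction n with
  | zero => simpa using RedEq.one
  | succ n ih => simpa [pow_succ] using ih.mul h

/-- Reduction commutes with finite sums. -/
theorem RedEq.sum {ι : Type*} {s : Finset ι} {c : ι → ℂ} {t : ι → AlgebraicClosure (ZMod l)}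
    (h : ∀ i ∈ s, RedEq red (c i) (t i)) : RedEq red (∑ i ∈ s, c i) (∑ i ∈ s, t i) := by
  classical
  induction s using Finset.induction with
  | empty => simpa using RedEq.zero
  | insert i s hi ih =>
    simpa [Finset.sum_insert hi] using
      (h i (Finset.mem_insert_self i s)).add (ih fun j hj => h j (Finset.mem_insert_of_mem hj))

/-- Reduction commutes with inversion at a nonzero value. -/
theorem RedEq.inv {c : ℂ} {t : AlgebraicClosure (ZMod l)} (h : RedEq red c t) (ht0 : t ≠ 0) :
    RedEq red c⁻¹ t⁻¹ := by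
  obtain ⟨a, b, hb, hc, ht⟩ := h
  have ha : red a ≠ 0 := by rw [ht]; exact mul_ne_zero ht0 hb
  have hc0 : c ≠ 0 := fun h0 => ha (by
    have : (a : ℂ) = 0 := by rw [← hc, h0, zero_mul]
    rw [show a = 0 from Subtype.ext this, map_zero])
  exact ⟨b, a, ha, by rw [← hc, inv_mul_cancel_left₀ hc0], by rw [ht, inv_mul_cancel_left₀ ht0]⟩

/-- An `l`-th root of unity reduces to one. -/
theorem RedEq.of_pow_eq_one {c : ℂ} (hc : c ^ l = 1) : RedEq red c 1 := by
  have hi : c ∈ integralClosure ℤ ℂ :=
    IsIntegral.of_pow (Fact.out : l.Prime).pos (by rw [hc]; exact isIntegral_one)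
  have h1 : red ⟨c, hi⟩ = 1 := by
    have hl : red ⟨c, hi⟩ ^ l = 1 := by
      rw [← map_pow, show (⟨c, hi⟩ : integralClosure ℤ ℂ) ^ l = 1 from Subtype.ext
        (by simpa using hc), map_one]
    have : CharP (AlgebraicClosure (ZMod l)) l :=
      charP_of_injective_algebraMap (algebraMap (ZMod l) _).injective l
    have h0 : (red ⟨c, hi⟩ - 1) ^ l = 0 := by rw [sub_pow_char, hl, one_pow, sub_self]
    exact sub_eq_zero.mp (eq_zero_of_pow_eq_zero h0)
  simpa [h1] using RedEq.of_mem (red := red) ⟨c, hi⟩

/-- Division of power series. -/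
theorem RedEq.coeff_div {F A B : PowerSeries ℂ} (h : F * B = A)
    {a b : AlgebraicClosure (ZMod l)} (hb : b ≠ 0) (hB0 : PowerSeries.coeff 0 B ≠ 0)
    (hA : ∀ n, RedEq red (PowerSeries.coeff n A) (if n = 0 then a else 0))
    (hB : ∀ n, RedEq red (PowerSeries.coeff n B) (if n = 0 then b else 0)) (n : ℕ) :
    RedEq red (PowerSeries.coeff n F) (if n = 0 then a * b⁻¹ else 0) := by
  induction n using Nat.strong_induction_on with
  | _ n ih =>
    have hn := congrArg (PowerSeries.coeff n) h
    rw [PowerSeries.coeff_mul, Finset.Nat.sum_antidiagonal_eq_sum_range_succ_mk,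
      Finset.sum_range_succ, Nat.sub_self] at hn
    have e : PowerSeries.coeff n F = (PowerSeries.coeff n A -
        ∑ i ∈ Finset.range n, PowerSeries.coeff i F * PowerSeries.coeff (n - i) B) *
          (PowerSeries.coeff 0 B)⁻¹ := by
      rw [← hn, add_sub_cancel_left, mul_inv_cancel_right₀ hB0]
    rw [e]
    have hs : RedEq red (∑ i ∈ Finset.range n, PowerSeries.coeff i F * PowerSeries.coeff (n - i) B)
        (∑ i ∈ Finset.range n, (0 : AlgebraicClosure (ZMod l))) :=
      RedEq.sum fun i hi => by
        have := (ih i (Finset.mem_range.mp hi)).mul (hB (n - i))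
        rwa [if_neg (Nat.sub_ne_zero_of_lt (Finset.mem_range.mp hi)), mul_zero] at this
    have := ((hA n).sub hs).mul ((hB 0).inv (by simpa using hb))
    simpa [ite_mul, apply_ite] using this

end Fermat.DS

end
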