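import Fermat.Agent.DS.Eis.Cusp
import Fermat.Agent.DS.Eis.Red

/-!
# The expansions at infinity of the two normalised series and of their quotient

`qExpansion_coeff_P3` and `qExpansion_coeff_P4` give the coefficients, and `R1_slash` shows how
slashing permutes the quotients.
-/

set_option autoImplicit false

noncomputable section

open Filter Function
open UpperHalfPlane hiding I
open scoped MatrixGroups Manifold ModularForm Matrix
open Fermat.JAC.XH

namespace Fermat.DS.Eis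

variable (N : ℕ) [NeZero N]

variable {N}

/-- Translation by one carries the class `(a₀, a₁)` to `(a₀, a₀ + a₁)`. -/
theorem G3_vadd_one (a : Fin 2 → ZMod N) (z : ℍ) :
    G3 N a ((1 : ℝ) +ᵥ z) = G3 N ![a 0, a 0 + a 1] z := by
  have h := congrFun (G3_slash a ModularGroup.T) z
  have hd : denom ModularGroup.T (z : ℂ) = 1 := by simp [denom, ModularGroup.coe_T]
  rw [ModularForm.SL_slash_apply, modular_T_smul, hd, one_zpow, mul_one] at h
  rw [h]
  congr 1
  funext i
  fin_cases i <;> simp [Matrix.vecMul, ModularGroup.coe_T, dotProduct, Fin.sum_univ_two]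

/-- The series of weight three attached to `(0, d)` has period one. -/
theorem periodic_P3 (d : ZMod N) : Periodic (P3 N ![0, d] ∘ ofComplex) 1 :=
  periodic_ext_of_vadd fun z => by rw [P3, P3, G3_vadd_one]; simp

/-- The series of weight four attached to `(0, d)` has period one. -/
theorem periodic_P4 (d : ZMod N) : Periodic (P4 N ![0, d] ∘ ofComplex) 1 :=
  periodic_ext_of_vadd fun z => by rw [P4, P4, G4_vadd_one]; simp

/-- The series of weight three is holomorphic. -/
theorem mdiff_P3 (a : Fin 2 → ZMod N) : MDiff (P3 N a) :=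
  mdifferentiable_const.mul (mdiff_G3 a)

/-- The series of weight four is holomorphic. -/
theorem mdiff_P4 (a : Fin 2 → ZMod N) : MDiff (P4 N a) :=
  mdifferentiable_const.mul (mdiff_G4 a)

/-- The series of weight three has no zero on the upper half plane. -/
theorem P3_ne_zero (h2 : IsUnit (2 : ZMod N)) {a : Fin 2 → ZMod N} (ha : a ≠ 0) (z : ℍ) :
    P3 N a z ≠ 0 :=
  mul_ne_zero (inv_ne_zero (eisK3_ne_zero N)) (G3_ne_zero N h2 ha z)

/-- The quotient is holomorphic. -/
theorem mdiff_R1 (h2 : IsUnit (2 : ZMod N)) {a : Fin 2 → ZMod N} (ha : a ≠ 0) :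
    MDiff (R1 N a) := by
  rw [UpperHalfPlane.mdifferentiable_iff]
  exact (UpperHalfPlane.mdifferentiable_iff.mp (mdiff_P4 a)).fun_div
    (UpperHalfPlane.mdifferentiable_iff.mp (mdiff_P3 a))
    fun z _ => P3_ne_zero h2 ha _

/-- Slashing permutes the quotients through the congruence classes. -/
theorem R1_slash (a : Fin 2 → ZMod N) (γ : SL(2, ℤ)) :
    R1 N a ∣[(1 : ℤ)] γ = R1 N (a ᵥ* γ) := by
  ext1 z
  have h4 := congrFun (G4_slash a γ) z
  have h3 := congrFun (G3_slash a γ) z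
  rw [ModularForm.SL_slash_apply] at h4 h3 ⊢
  simp only [R1, P4, P3, ← h4, ← h3]
  have hd : denom γ (z : ℂ) ≠ 0 := denom_ne_zero _ _
  simp only [_root_.zpow_neg, zpow_one]
  rw [show (4 : ℤ) = ((4 : ℕ) : ℤ) from rfl, show (3 : ℤ) = ((3 : ℕ) : ℤ) from rfl, zpow_natCast,
    zpow_natCast]
  field_simp

/-- The series of weight three is bounded at infinity. -/
theorem isBoundedAtImInfty_P3 (hN : Odd N) (h2 : IsUnit (2 : ZMod N)) {a : Fin 2 → ZMod N}
    (ha : a ≠ 0) : IsBoundedAtImInfty (P3 N a) := by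
  obtain ⟨m, c, M, hc, hb⟩ := exists_leading hN h2 ha
  refine Asymptotics.IsBigO.of_bound (‖c‖ + |M|) ((show ∀ᶠ z : ℍ in atImInfty, 1 ≤ z.im from
    tendsto_comap.eventually_ge_atTop 1).mono fun z hz => ?_)
  have hq : ‖qN N z‖ ≤ 1 := (norm_qN_le N hz).trans (Real.exp_le_one_iff.mpr
    (div_nonpos_of_nonpos_of_nonneg (by nlinarith [Real.pi_pos]) (by positivity)))
  rw [Pi.one_apply, norm_one, mul_one]
  refine (norm_le_norm_add_norm_sub' _ (c * qN N z ^ m)).trans (add_le_add ?_ ?_)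
  · rw [norm_mul, norm_pow]
    exact mul_le_of_le_one_right (norm_nonneg _) (pow_le_one₀ (norm_nonneg _) hq)
  · refine (hb z hz).1.trans ((mul_le_mul_of_nonneg_right (le_abs_self M) (by positivity)).trans ?_)
    exact mul_le_of_le_one_right (abs_nonneg _) (pow_le_one₀ (norm_nonneg _) hq)

variable (N)

/-- The coefficients of `P3 N ![0, r]`. -/
def cyc3Coeff (r : ℤ) (n : ℕ) : ℂ :=
  (if n = 0 then eisConst3 N r else 0) + ∑ x ∈ n.divisorsAntidiagonal,
    (x.2 : ℂ) ^ 2 * (qz ((r : ℂ) / N) ^ x.2 - qz (-(r : ℂ) / N) ^ x.2)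

/-- The coefficients at `∞` of the normalised series of weight three. -/
theorem qExpansion_coeff_P3 (hN : Odd N) (h2 : IsUnit (2 : ZMod N)) {r : ℤ}
    (hr : (r : ZMod N) ≠ 0) (n : ℕ) :
    (qExpansion 1 (P3 N ![0, (r : ZMod N)])).coeff n = cyc3Coeff N r n := by
  have ha : ![0, (r : ZMod N)] ≠ 0 := fun h => hr (by simpa using congrFun h 1)
  have hb : Fermat.MC.BddPer (P3 N ![0, (r : ZMod N)]) :=
    ⟨mdiff_P3 _, periodic_P3 _, isBoundedAtImInfty_P3 hN h2 ha⟩
  have := coeff_qS_eq (f := P3 N ![0, (r : ZMod N)]) hb (c := cyc3Coeff N r) (fun z => ?_) n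
  · rwa [Fermat.MC.qS, HahnSeries.ofPowerSeries_apply_coeff] at this
  -- only rows `c` divisible by `N` occur; reindex by `c = N c'`
  rw [P3_eq ![0, (r : ZMod N)] r (by simp), if_pos (by simp)]
  let u : ℕ → ℕ → ℂ := fun _ k => qz ((r : ℂ) / N) ^ k - qz (-(r : ℂ) / N) ^ k
  have hu : ∀ c k, ‖u c k‖ ≤ 2 := fun c k => by
    refine (norm_sub_le _ _).trans ?_
    have h2 := norm_qz_int_div N (-r)
    rw [Int.cast_neg] at h2
    norm_num [norm_pow, norm_qz_int_div, h2]
  let ψ : ℕ+ × ℕ+ → ℕ+ × ℕ+ := fun x => (⟨N, NeZero.pos N⟩ * x.1, x.2)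
  have hψ : Injective ψ := fun x y h => by
    obtain ⟨h1, h2⟩ := Prod.mk.inj h
    exact Prod.ext (mul_left_cancel h1) h2
  have hcyc : (∑' x : ℕ+ × ℕ+, ((x.2 : ℕ) : ℂ) ^ 2 * rowWeight3 N ![0, (r : ZMod N)] r x.1 x.2 *
      qN N z ^ ((x.1 : ℕ) * x.2)) =
      ∑' x : ℕ+ × ℕ+, ((x.2 : ℕ) : ℂ) ^ 2 * u x.1 x.2 * qz (z : ℂ) ^ ((x.1 : ℕ) * x.2) := by
    rw [← hψ.tsum_eq]
    · refine tsum_congr fun x => ?_
      have hm : ((⟨N, NeZero.pos N⟩ * x.1 : ℕ+) : ℕ) = N * (x.1 : ℕ) := rfl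
      simp only [ψ, hm, u, rowWeight3, qN]
      rw [show qz (z : ℂ) = qz ((z : ℂ) / N) ^ N by
        rw [qz_pow]; congr 1; field_simp [(Nat.cast_ne_zero.mpr (NeZero.ne N) : (N : ℂ) ≠ 0)],
        ← pow_mul, Nat.mul_assoc]
      simp
    · intro x hx
      by_contra hnot
      refine hx ?_
      have hdvd : ¬ (N : ℤ) ∣ ((x.1 : ℕ) : ℤ) := fun hd => hnot (by
        obtain ⟨c, hc⟩ := Int.natCast_dvd_natCast.mp hd
        have hcpos : 0 < c := Nat.pos_of_ne_zero fun h => by simp [h] at hc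
        exact ⟨(⟨c, hcpos⟩, x.2), Prod.ext (PNat.coe_injective hc.symm) rfl⟩)
      rw [← ZMod.intCast_zmod_eq_zero_iff_dvd] at hdvd
      simp only [rowWeight3]
      rw [if_neg (by simpa using hdvd), if_neg (by simpa using hdvd)]
      simp
  -- the Lambert series is a sum over divisors
  rw [hcyc]
  refine ((hasSum_ite_eq (0 : ℕ) (eisConst3 N r)).add (hasSum_divisors 2 u hu z)).congr_fun
    fun m => ?_
  rw [cyc3Coeff, add_mul]
  congr 1
  split_ifs with hm <;> simp [hm]

/-- The coefficients of the series of weight four attached to `(0, r)`. -/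
theorem qExpansion_coeff_P4 {r : ℤ} (n : ℕ) :
    (qExpansion 1 (P4 N ![0, (r : ZMod N)])).coeff n = eisCycCoeff N r n := by
  rw [← coeff_qS_eisCyc N n, Fermat.MC.qS, HahnSeries.ofPowerSeries_apply_coeff]
  rfl

/-- The series of weight four attached to `(0, d)` is holomorphic, periodic and bounded at
infinity. -/
theorem bddPer_P4 (d : ZMod N) : Fermat.MC.BddPer (P4 N ![0, d]) := bddPer_eisCyc N d

end Fermat.DS.Eis

end
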