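import Fermat.Agent.JAC.XH.Eisen4

/-!
# Eisenstein series of weight three for congruence classes, with their expansions

`G3 N a z = ∑ (c z + d)⁻³` over all integer vectors `(c, d) ≡ a (mod N)`.
-/

set_option autoImplicit false

noncomputable section

open Complex EisensteinSeries Filter
open UpperHalfPlane hiding I
open scoped Real MatrixGroups Manifold Topology ModularForm Matrix
open Fermat.JAC.XH

namespace Fermat.DS.Eis

variable (N : ℕ) [NeZero N]

/-- The weight three Eisenstein series of a class modulo `N`. -/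
def G3 (a : Fin 2 → ZMod N) (z : ℍ) : ℂ := ∑' v : vecSet N a, eisSummand 3 v z

/-- The normalising constant. -/
def eisK3 : ℂ := (-2 * π * I) ^ 3 / (2 * (N : ℂ) ^ 3)

/-- The constant factor is nonzero. -/
theorem eisK3_ne_zero : eisK3 N ≠ 0 := by
  simp [eisK3, Real.pi_ne_zero, NeZero.ne N]

omit [NeZero N] in
/-- The series converges absolutely. -/
theorem summable_G3 (a : Fin 2 → ZMod N) (z : ℍ) :
    Summable fun v : vecSet N a => eisSummand 3 v z :=
  (summable_norm_eisSummand (k := (3 : ℤ)) (by norm_num) z).of_norm.subtype _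

variable {N}

/-- Slashing permutes the series through the congruence classes. -/
theorem G3_slash (a : Fin 2 → ZMod N) (γ : SL(2, ℤ)) :
    G3 N a ∣[(3 : ℤ)] γ = G3 N (a ᵥ* γ) := by
  ext1 z
  simp_rw [ModularForm.SL_slash_apply, zpow_neg,
    mul_inv_eq_iff_eq_mul₀ (zpow_ne_zero _ <| denom_ne_zero _ z),
    G3, eisSummand_SL2_apply, tsum_mul_left, mul_comm (_ ^ (3 : ℤ))]
  congr 1
  exact (vecSetEquiv a γ).tsum_eq (eisSummand 3 · z)

/-- The series is holomorphic. -/
theorem mdiff_G3 (a : Fin 2 → ZMod N) : MDiff (G3 N a) := mdiff_tsum_eisSummand (by norm_num) a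

variable (N)

/-- The sum over the second coordinate. -/
def rowSum3 (c r : ℤ) (z : ℍ) : ℂ := ∑' m : ℤ, eisSummand 3 ![c, r + N * m] z

omit [NeZero N] in
/-- Negating `c` exchanges `r` with `-r` and changes the sign of the row sum. -/
theorem rowSum3_neg (c r : ℤ) (z : ℍ) : rowSum3 N (-c) r z = -rowSum3 N c (-r) z := by
  rw [rowSum3, rowSum3, ← (Equiv.neg ℤ).tsum_eq, ← tsum_neg]
  refine tsum_congr fun m => ?_
  simp only [eisSummand, Matrix.cons_val_zero, Matrix.cons_val_one, Equiv.neg_apply]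
  push_cast
  rw [← (show Odd (-(3 : ℤ)) from ⟨-2, rfl⟩).neg_zpow]
  congr 1
  ring

/-- A row sum for positive `c` as a series in `q`. -/
theorem rowSum3_pos (c : ℕ+) (r : ℤ) (z : ℍ) :
    rowSum3 N (c : ℕ) r z =
      eisK3 N * ∑' k : ℕ+, ((k : ℕ) : ℂ) ^ 2 * qz (((c : ℕ) * (z : ℂ) + r) / N) ^ (k : ℕ) := by
  refine (tsum_eisSummand_row N (k := 2) (by norm_num) c r z).trans ?_
  rw [eisK3, ← mul_assoc]
  congr 1
  simp [Nat.factorial]
  ring

/-- The weight of a pair in the expansion. -/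
def rowWeight3 (a : Fin 2 → ZMod N) (r : ℤ) (c k : ℕ) : ℂ :=
  (if ((c : ℤ) : ZMod N) = a 0 then qz ((r : ℂ) / N) ^ k else 0) -
    if ((-(c : ℤ) : ℤ) : ZMod N) = a 0 then qz (-(r : ℂ) / N) ^ k else 0

/-- The weights have norm at most two. -/
theorem norm_rowWeight3_le (a : Fin 2 → ZMod N) (r : ℤ) (c k : ℕ) :
    ‖rowWeight3 N a r c k‖ ≤ 2 := by
  have h : ∀ (P : Prop) [Decidable P] (r' : ℤ), ‖if P then qz ((r' : ℂ) / N) ^ k else 0‖ ≤ 1 :=
    fun P _ r' => by split_ifs <;> simp [norm_qz_int_div]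
  refine (norm_sub_le _ _).trans ?_
  have h2 := h (((-(c : ℤ) : ℤ) : ZMod N) = a 0) (-r)
  rw [Int.cast_neg r] at h2
  exact (add_le_add (h _ r) h2).trans (by norm_num)

/-- The expansion of `G3`. -/
theorem G3_eq (a : Fin 2 → ZMod N) (r : ℤ) (hr : (r : ZMod N) = a 1) (z : ℍ) :
    G3 N a z = (if a 0 = 0 then rowSum3 N 0 r z else 0) + eisK3 N *
      ∑' x : ℕ+ × ℕ+, ((x.2 : ℕ) : ℂ) ^ 2 * rowWeight3 N a r x.1 x.2 *
        qz ((z : ℂ) / N) ^ ((x.1 : ℕ) * x.2) := by
  have h := tsum_vecSet_eq N (-1) (eisK3 N) (by simp) a r hr z (summable_G3 N a z)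
    (fun c r' => (rowSum3_neg N c r' z).trans (neg_one_mul _).symm)
    (fun c r' => rowSum3_pos N c r' z)
  simp only [neg_one_mul, ← sub_eq_add_neg] at h
  exact h

/-- The constant term of the weight three series, by Bernoulli polynomials. -/
def eisConst3 (r : ℤ) : ℂ :=
  (N : ℂ) ^ 2 / 3 * ∑ j ∈ Finset.range N,
    qz (-(r : ℂ) / N) ^ j * (((Polynomial.bernoulli 3).eval ((j : ℚ) / N) : ℚ) : ℂ)

/-- The row `c = 0` gives the constant term. -/
theorem rowSum3_zero (r : ℤ) (z : ℍ) :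
    rowSum3 N 0 r z = eisK3 N * eisConst3 N r := by
  have hN : (N : ℂ) ≠ 0 := Nat.cast_ne_zero.mpr (NeZero.ne N)
  refine mul_left_cancel₀ hN
    ((natCast_mul_tsum_eisSummand_zero N (k := 3) (by norm_num) r z).trans ?_)
  rw [eisConst3, eisK3, Finset.mul_sum, Finset.mul_sum, Finset.mul_sum]
  refine Finset.sum_congr rfl fun j _ => ?_
  simp [Nat.factorial]
  field_simp
  ring

end Fermat.DS.Eis

end
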