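import Fermat.Agent.DS.Eis.Expansion

/-!
# A weight one form of prime level congruent to one

It is a normalised quotient of forms of weights four and three (`eisOne`).

`eisStatement`; multiplying by it moves the form to weight two (`DS/Red/Main`).
-/

set_option autoImplicit false

noncomputable section

open Filter Function
open UpperHalfPlane hiding I
open scoped MatrixGroups Manifold ModularForm Matrix
open Fermat.JAC.XH
open Fermat.DS.Eis

namespace Fermat.DS

variable {l : ℕ} [Fact l.Prime] {red : integralClosure ℤ ℂ →+* AlgebraicClosure (ZMod l)}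

/-- An `l`-th root of unity reduces to one. -/
theorem RedEq.qz_neg_div (r : ℤ) : RedEq red (qz (-(r : ℂ) / l)) 1 :=
  RedEq.of_pow_eq_one (qz_neg_div_pow l r)

/-- An `l`-th root of unity reduces to one. -/
theorem RedEq.qz_div (r : ℤ) : RedEq red (qz ((r : ℂ) / l)) 1 := by
  simpa [Int.cast_neg] using RedEq.qz_neg_div (red := red) (-r)

/-- The third power of `1 - x` times the expansion of weight three is congruent to `-2`. -/
theorem redEq_cyc3Coeff {r : ℤ} (hr : (r : ZMod l) ≠ 0) (n : ℕ) :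
    RedEq red ((1 - qz (-(r : ℂ) / l)) ^ 3 * cyc3Coeff l r n) (if n = 0 then -2 else 0) := by
  have hx := RedEq.qz_neg_div (red := red) r
  have hy : RedEq red (1 - qz (-(r : ℂ) / l)) 0 := by simpa using RedEq.one.sub hx
  have hs : RedEq red (∑ x ∈ n.divisorsAntidiagonal,
      (x.2 : ℂ) ^ 2 * (qz ((r : ℂ) / l) ^ x.2 - qz (-(r : ℂ) / l) ^ x.2)) 0 := by
    have := RedEq.sum (red := red) (s := n.divisorsAntidiagonal) fun x _ =>
      ((RedEq.natCast (red := red) x.2).pow 2).mul
        (((RedEq.qz_div (red := red) r).pow x.2).sub (hx.pow x.2))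
    simpa using this
  rw [cyc3Coeff, mul_add]
  split_ifs with h
  · rw [one_sub_pow_mul_eisConst3 l hr]
    have := (hx.mul (RedEq.one.add hx)).neg.add ((hy.pow 3).mul hs)
    simpa [one_add_one_eq_two] using this
  · rw [mul_zero, zero_add]
    simpa using (hy.pow 3).mul hs

/-- The fourth power of `1 - x` times the expansion of weight four is congruent to `6`. -/
theorem redEq_eisCycCoeff {r : ℤ} (hr : (r : ZMod l) ≠ 0) (n : ℕ) :
    RedEq red ((1 - qz (-(r : ℂ) / l)) ^ 4 * eisCycCoeff l r n) (if n = 0 then 6 else 0) := by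
  have hx := RedEq.qz_neg_div (red := red) r
  have hy : RedEq red (1 - qz (-(r : ℂ) / l)) 0 := by simpa using RedEq.one.sub hx
  have hs := RedEq.sum (red := red) (s := n.divisorsAntidiagonal) fun x _ =>
      ((RedEq.natCast (red := red) x.2).pow 3).mul
        (((RedEq.qz_div (red := red) r).pow x.2).add (hx.pow x.2))
  rw [eisCycCoeff, mul_add]
  split_ifs with h
  · rw [one_sub_pow_mul_eisConst l hr]
    have := (hx.mul ((RedEq.one.add ((RedEq.natCast (red := red) 4).mul hx)).add (hx.pow 2))).add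
      ((hy.pow 4).mul hs)
    norm_num at this ⊢
    exact this
  · rw [mul_zero, zero_add]
    simpa using (hy.pow 4).mul hs

namespace Eis

variable (l)

/-- The normalising factor `-(1 - ζ⁻¹) / 3`. -/
def eisMu : ℂ := -(1 / 3) * (1 - qz (-((1 : ℤ) : ℂ) / l))

/-- The weight one form: a normalised quotient of forms of weights four and three. -/
def eisOne (z : ℍ) : ℂ := eisMu l * R1 l ![0, 1] z

/-- Slashing acts through the last row of the matrix modulo `l`. -/
theorem eisOne_slash (γ : SL(2, ℤ)) :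
    eisOne l ∣[(1 : ℤ)] γ =
      fun z => eisMu l * R1 l ![((γ 1 0 : ℤ) : ZMod l), ((γ 1 1 : ℤ) : ZMod l)] z := by
  have e : (![0, 1] ᵥ* γ : Fin 2 → ZMod l) = ![((γ 1 0 : ℤ) : ZMod l), ((γ 1 1 : ℤ) : ZMod l)] := by
    funext i
    fin_cases i <;> simp [Matrix.vecMul, dotProduct, Fin.sum_univ_two]
  funext z
  have h := congrFun (R1_slash (N := l) ![0, 1] γ) z
  rw [e, ModularForm.SL_slash_apply] at h
  simp only [eisOne, ModularForm.SL_slash_apply]
  rw [mul_assoc, h]

/-- The last row of a matrix of determinant one is nonzero modulo `l`. -/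
theorem last_row_ne_zero (γ : SL(2, ℤ)) :
    ![((γ 1 0 : ℤ) : ZMod l), ((γ 1 1 : ℤ) : ZMod l)] ≠ 0 := fun h => by
  have h0 : ((γ 1 0 : ℤ) : ZMod l) = 0 := by simpa using congrFun h 0
  have h1 : ((γ 1 1 : ℤ) : ZMod l) = 0 := by simpa using congrFun h 1
  have hd := congrArg (fun a : ℤ => (a : ZMod l)) γ.2
  rw [Matrix.det_fin_two] at hd
  push_cast at hd
  rw [h0, h1] at hd
  simp at hd

/-- The expansion of the scaled quotient reduces modulo `l` to the constant `d⁻¹`. -/
theorem redEq_qCoeff_R1 (h2 : IsUnit (2 : ZMod l)) (hodd : Odd l) (hl : 3 < l) {d : ZMod l}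
    (hd : d ≠ 0) (n : ℕ) :
    RedEq red (ModularFormClass.qCoeff (fun z => eisMu l * R1 l ![0, d] z) n)
      (if n = 0 then algebraMap (ZMod l) _ d⁻¹ else 0) := by
  set r : ℤ := ((d.val : ℕ) : ℤ) with hrdef
  have hrd : (r : ZMod l) = d := by simp [r]
  have hr : (r : ZMod l) ≠ 0 := hrd ▸ hd
  have ha : ![0, d] ≠ 0 := fun h => hd (by simpa using congrFun h 1)
  have hne : ∀ m : ℕ, 0 < m → m < l → (m : AlgebraicClosure (ZMod l)) ≠ 0 := by
    intro m h0 hm h
    have : CharP (AlgebraicClosure (ZMod l)) l :=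
      charP_of_injective_algebraMap (algebraMap (ZMod l) _).injective l
    rw [CharP.cast_eq_zero_iff _ l] at h
    exact absurd (Nat.le_of_dvd h0 h) hm.not_ge
  set f : ℍ → ℂ := fun z => eisMu l * R1 l ![0, d] z
  set y : ℂ := 1 - qz (-(r : ℂ) / l)
  set S : ℂ := ∑ i ∈ Finset.range d.val, qz (-((1 : ℤ) : ℂ) / l) ^ i
  have hyS : y = (1 - qz (-((1 : ℤ) : ℂ) / l)) * S := by
    rw [mul_neg_geom_sum, qz_pow]
    simp only [y, r]
    push_cast
    ring_nf
  have hS : RedEq red S (d.val : AlgebraicClosure (ZMod l)) := by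
    simpa [S] using RedEq.sum (red := red) (s := Finset.range d.val) fun i _ =>
      (RedEq.qz_neg_div (red := red) 1).pow i
  have hd0 : (d.val : AlgebraicClosure (ZMod l)) ≠ 0 :=
    hne _ (ZMod.val_pos.mpr hd) (ZMod.val_lt d)
  have hy : y ≠ 0 := sub_ne_zero.mpr (qz_neg_div_ne_one l hr).symm
  have hS0 : S ≠ 0 := fun h => hy (by rw [hyS, h, mul_zero])
  -- analyticity at the cusp
  have hfm : MDiff f := mdifferentiable_const.mul (mdiff_R1 h2 ha)
  have hfb : IsBoundedAtImInfty f :=
    (Filter.const_boundedAtFilter _ _).mul (isBoundedAtImInfty_R1 hodd h2 ha)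
  have hfp : Periodic (f ∘ ofComplex) 1 := fun w => by
    have e3 := periodic_P3 (N := l) d w
    have e4 := periodic_P4 (N := l) d w
    simp only [comp_apply] at e3 e4
    simp only [f, R1, comp_apply, e3, e4]
  have hfa := analyticAt_cuspFunction_zero (f := f) one_pos (by simpa using hfp) hfm hfb
  have hgb : Fermat.MC.BddPer (P4 l ![0, d]) := bddPer_P4 l d
  have hg3 : AnalyticAt ℂ (cuspFunction 1 (P3 l ![0, d])) 0 :=
    analyticAt_cuspFunction_zero one_pos (by simpa using periodic_P3 (N := l) d) (mdiff_P3 _)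
      (isBoundedAtImInfty_P3 hodd h2 ha)
  have hprod : qExpansion 1 f * qExpansion 1 (P3 l ![0, d]) =
      eisMu l • qExpansion 1 (P4 l ![0, d]) := by
    rw [← qExpansion_mul hfa hg3, ← qExpansion_smul hgb.analyticAt]
    congr 1
    funext z
    simp only [f, R1, Pi.mul_apply, Pi.smul_apply, smul_eq_mul]
    rw [mul_assoc, div_mul_cancel₀ _ (P3_ne_zero h2 ha z)]
  -- the congruence
  have key : qExpansion 1 f * (PowerSeries.C (y ^ 3) * qExpansion 1 (P3 l ![0, d])) =
      PowerSeries.C (y ^ 3) * (eisMu l • qExpansion 1 (P4 l ![0, d])) := by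
    rw [← hprod]; ring
  have hB : ∀ m, RedEq red (PowerSeries.coeff m (PowerSeries.C (y ^ 3) *
      qExpansion 1 (P3 l ![0, d]))) (if m = 0 then -2 else 0) := fun m => by
    rw [PowerSeries.coeff_C_mul, ← hrd, qExpansion_coeff_P3 l hodd h2 hr]
    exact redEq_cyc3Coeff hr m
  have h3 : (3 : AlgebraicClosure (ZMod l)) ≠ 0 := by exact_mod_cast hne 3 three_pos hl
  have h2' : (2 : AlgebraicClosure (ZMod l)) ≠ 0 := by
    exact_mod_cast hne 2 two_pos (by omega)
  have hA : ∀ m, RedEq red (PowerSeries.coeff m (PowerSeries.C (y ^ 3) *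
      (eisMu l • qExpansion 1 (P4 l ![0, d]))))
      (if m = 0 then -(3⁻¹ * (d.val : AlgebraicClosure (ZMod l))⁻¹ * 6) else 0) := fun m => by
    rw [PowerSeries.coeff_C_mul, map_smul, smul_eq_mul, ← hrd, qExpansion_coeff_P4 l,
      show y ^ 3 * (eisMu l * eisCycCoeff l r m) =
        -((3 : ℂ)⁻¹ * S⁻¹ * (y ^ 4 * eisCycCoeff l r m)) from by
        rw [eisMu, show (1 - qz (-((1 : ℤ) : ℂ) / l)) = y * S⁻¹ from by
          rw [hyS, mul_inv_cancel_right₀ hS0]]
        ring]
    rw [hrd]
    have := ((((RedEq.natCast (red := red) 3).inv (by exact_mod_cast h3)).mul (hS.inv hd0)).mul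
      (redEq_eisCycCoeff (red := red) hr m)).neg
    split_ifs with hm <;> simpa [hm] using this
  have hB0 : PowerSeries.coeff 0 (PowerSeries.C (y ^ 3) * qExpansion 1 (P3 l ![0, d])) ≠ 0 := by
    rw [PowerSeries.coeff_C_mul, ← hrd, qExpansion_coeff_P3 l hodd h2 hr]
    refine mul_ne_zero (pow_ne_zero _ hy) ?_
    simpa [cyc3Coeff] using eisConst3_ne_zero hodd hr
  have := RedEq.coeff_div key (neg_ne_zero.mpr h2') hB0 hA hB n
  convert this using 2
  · rfl
  · rw [map_inv₀, show algebraMap (ZMod l) (AlgebraicClosure (ZMod l)) d = (d.val : _) by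
      rw [← map_natCast (algebraMap (ZMod l) (AlgebraicClosure (ZMod l))), ZMod.natCast_zmod_val]]
    field_simp
    norm_num

end Eis

open Eis in
/-- **A weight one form of prime level congruent to one.** -/
theorem eisStatement : EisStatement := by
  refine ⟨3, fun l _ hl => ⟨eisOne l, ?_, ?_, ?_, ?_⟩⟩
  all_goals
    have hodd : Odd l := (Fact.out : l.Prime).odd_of_ne_two (by omega)
    have h2 : IsUnit (2 : ZMod l) := isUnit_iff_ne_zero.mpr fun h => by
      have := (ZMod.natCast_eq_zero_iff 2 l).mp (by exact_mod_cast h)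
      exact absurd (Nat.le_of_dvd two_pos this) (by omega)
  · exact mdifferentiable_const.mul (mdiff_R1 h2 fun h => by simpa using congrFun h 1)
  · intro γ hγ
    rw [eisOne_slash]
    obtain ⟨-, h11, h10⟩ := CongruenceSubgroup.Gamma1_mem l γ |>.mp hγ
    rw [h10, h11]
    rfl
  · intro γ
    rw [eisOne_slash]
    exact (Filter.const_boundedAtFilter _ _).mul
      (isBoundedAtImInfty_R1 hodd h2 (last_row_ne_zero l γ))
  · intro red γ hγ n
    rw [eisOne_slash, CongruenceSubgroup.Gamma0_mem.mp hγ]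
    refine redEq_qCoeff_R1 l h2 hodd hl (fun h => ?_) n
    exact last_row_ne_zero l γ (by rw [CongruenceSubgroup.Gamma0_mem.mp hγ, h]; simp)

end Fermat.DS

end
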